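/-
S56 / block EC-IND, part (B), leaf B7 (Mathlib only) : every ideal of `F_p[X]/(X^m - 1)`, `p ∤ m`,
is generated by an idempotent; statement in `ℤ[X]`.
-/
import Fermat.Agent.S56.EC.Defs

set_option autoImplicit false

namespace Fermat.Agent.S56.EC.Ind.B

open Fermat.Agent.S56.EC Polynomial

/-- The kernel of `ℤ[X] → (ZMod p)[X]` is `C p * ℤ[X]`. -/
theorem Alg_ker (p : ℕ) (Q : ℤ[X]) (h : mapRingHom (Int.castRingHom (ZMod p)) Q = 0) :
    ∃ Q₁ : ℤ[X], Q = C (p : ℤ) * Q₁ := by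
  have h1 : C (p : ℤ) ∣ Q := by
    rw [Polynomial.C_dvd_iff_dvd_coeff]
    intro i
    have h2 := congrArg (fun f => f.coeff i) h
    simp only [coe_mapRingHom, coeff_map, coeff_zero, eq_intCast] at h2
    exact (ZMod.intCast_zmod_eq_zero_iff_dvd _ _).1 h2
  exact h1

theorem Alg_surj (p : ℕ) : Function.Surjective (mapRingHom (Int.castRingHom (ZMod p))) :=
  Polynomial.map_surjective _ ZMod.intCast_surjective

theorem Alg_map_rel (p m : ℕ) :
    mapRingHom (Int.castRingHom (ZMod p)) (X ^ m - 1 : ℤ[X]) = X ^ m - 1 := by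
  simp

/-- Divisibility by `X^m - 1` modulo `p`, lifted. -/
theorem Alg_lift (p m : ℕ) (Q : ℤ[X]) (R' : (ZMod p)[X])
    (h : mapRingHom (Int.castRingHom (ZMod p)) Q = (X ^ m - 1) * R') :
    ∃ Q₁ Q₂ : ℤ[X], Q = C (p : ℤ) * Q₁ + (X ^ m - 1) * Q₂ := by
  obtain ⟨R, rfl⟩ := Alg_surj p R'
  obtain ⟨Q₁, hQ₁⟩ := Alg_ker p (Q - (X ^ m - 1) * R) (by
    rw [map_sub, map_mul, Alg_map_rel, h, sub_self])
  exact ⟨Q₁, R, by rw [← hQ₁]; ring⟩

/-- PROOF: the image `J'` of `J` in `(ZMod p)[X]` is principal, `J' = (g)`, `g ∣ X^m - 1 = g * h`;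
`X^m - 1` is separable (`p ∤ m`), so `u g + w h = 1`; `P` := any lift of `w h`. The kernel of
`ℤ[X] → (ZMod p)[X]` is `C p * ℤ[X] ⊆ J`. -/
theorem exists_idemPoly (p m : ℕ) [Fact p.Prime] (hm : ¬ p ∣ m) (J : Ideal ℤ[X])
    (hp : C (p : ℤ) ∈ J) (hX : (X ^ m - 1 : ℤ[X]) ∈ J) :
    ∃ P : ℤ[X], IsIdemPoly p m P ∧ 1 - P ∈ J ∧
      ∀ Q ∈ J, ∃ Q₁ Q₂ : ℤ[X], P * Q = C (p : ℤ) * Q₁ + (X ^ m - 1) * Q₂ := by
  set π := mapRingHom (Int.castRingHom (ZMod p)) with hπ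
  have hsurj : Function.Surjective π := Alg_surj p
  obtain ⟨g, hg⟩ : ∃ g : (ZMod p)[X], J.map π = Ideal.span {g} :=
    (IsPrincipalIdealRing.principal (J.map π)).principal
  have hmemJ' : ∀ Q ∈ J, ∃ r, π Q = g * r := by
    intro Q hQ
    have h1 : π Q ∈ J.map π := Ideal.mem_map_of_mem π hQ
    rw [hg, Ideal.mem_span_singleton] at h1
    exact h1
  obtain ⟨h, hh⟩ := hmemJ' _ hX
  rw [hπ, Alg_map_rel] at hh
  have hm' : (m : ZMod p) ≠ 0 := by
    rw [Ne, ZMod.natCast_eq_zero_iff]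
    exact hm
  have hsep : (X ^ m - C (1 : ZMod p)).Separable :=
    Polynomial.separable_X_pow_sub_C (1 : ZMod p) hm' one_ne_zero
  rw [map_one, hh] at hsep
  obtain ⟨u, w, huw⟩ := hsep.isCoprime
  obtain ⟨P, hP⟩ := hsurj (w * h)
  refine ⟨P, ?_, ?_, ?_⟩
  · refine Alg_lift p m (P * P - P) (-(u * w)) ?_
    rw [map_sub, map_mul]
    change π P * π P - π P = _
    rw [hP, hh]
    linear_combination (w * h) * huw
  · have h1 : π (1 - P) ∈ J.map π := by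
      rw [hg, Ideal.mem_span_singleton, map_sub, map_one, hP]
      exact ⟨u, by linear_combination - huw⟩
    obtain ⟨Q, hQ, hQe⟩ := (Ideal.mem_map_iff_of_surjective π hsurj).1 h1
    obtain ⟨Q₁, hQ₁⟩ := Alg_ker p (1 - P - Q) (by
      change π (1 - P - Q) = 0
      rw [map_sub π (1 - P) Q, hQe, sub_self])
    have h2 : 1 - P = C (p : ℤ) * Q₁ + Q := by rw [← hQ₁]; ring
    rw [h2]
    exact J.add_mem (J.mul_mem_right _ hp) hQ
  · intro Q hQ
    obtain ⟨r, hr⟩ := hmemJ' Q hQ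
    refine Alg_lift p m (P * Q) (w * r) ?_
    rw [map_mul]
    change π P * π Q = _
    rw [hP, hr, hh]
    ring

end Fermat.Agent.S56.EC.Ind.B
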