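/-
S56 / block EC-IND, part (B) (helper236) : the coinduced module `CoInd H V` of a module `V` over a
subgroup `H ≤ D`:  functions `F : D → V` with `h • F (x * h) = F x`, `D` acting by left translation.
Definitions and defining lemmas only.
-/
import Fermat.Agent.S56.EC.Ind.Basic
import Fermat.Agent.S56.EC.Defs

set_option autoImplicit false

namespace Fermat.Agent.S56.EC.Ind.B

open Fermat.Agent.S55 Fermat.Agent.S56.EC

variable {D : Type} [Group D] (H : Subgroup D)

/-- The stable subgroup of `Map(D, V)` of all `F` with `h • F (x * h) = F x`. -/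
def coind (V : Type) [AddCommGroup V] [DistribMulAction H V] : GSub D (PFun V D) where
  carrier := {F | ∀ (h : H) (x : D), h • F (x * h) = F x}
  zero_mem' := fun h x => smul_zero h
  add_mem' := by
    intro F F' hF hF' h x
    rw [PFun.add_apply, PFun.add_apply, smul_add, hF h x, hF' h x]
  neg_mem' := by
    intro F hF h x
    rw [PFun.neg_apply, PFun.neg_apply, smul_neg, hF h x]
  smul_mem' := by
    intro g F hF h x
    rw [PFun.smul_apply, PFun.smul_apply, smul_eq_mul, smul_eq_mul, ← mul_assoc]
    exact hF h (g⁻¹ * x)

/-- The coinduced module. -/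
abbrev CoInd (V : Type) [AddCommGroup V] [DistribMulAction H V] : Type := (coind H V).Mod

variable {H}
variable {V W U : Type} [AddCommGroup V] [DistribMulAction H V] [AddCommGroup W]
  [DistribMulAction H W] [AddCommGroup U] [DistribMulAction H U]

/-- Evaluation at `x`. -/
def cev (x : D) : CoInd H V →+ V where
  toFun F := (coind H V).incl F x
  map_zero' := rfl
  map_add' _ _ := rfl

theorem cev_ext {F F' : CoInd H V} (h : ∀ x, cev x F = cev x F') : F = F' :=
  (coind H V).incl_injective (PFun.ext h)

theorem cev_smul (g x : D) (F : CoInd H V) : cev x (g • F) = cev (g⁻¹ * x) F := rfl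

theorem smul_cev_mul (h : H) (x : D) (F : CoInd H V) : h • cev (x * h) F = cev x F :=
  (coind H V).incl_mem F h x

/-- Build an element of `CoInd H V`. -/
def cmk (F : D → V) (hF : ∀ (h : H) (x : D), h • F (x * h) = F x) : CoInd H V :=
  (coind H V).mkMod (PFun.of F) hF

@[simp] theorem cev_cmk (F : D → V) (hF : ∀ (h : H) (x : D), h • F (x * h) = F x) (x : D) :
    cev x (cmk F hF) = F x := rfl

/-- Functoriality. -/
def coindMap (φ : V →+[H] W) : CoInd H V →+[D] CoInd H W where
  toFun F := cmk (fun x => φ (cev x F)) (fun h x => by rw [← map_smul, smul_cev_mul])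
  map_smul' g F := cev_ext fun x => rfl
  map_zero' := cev_ext fun x => map_zero φ
  map_add' F F' := cev_ext fun x => by
    change φ (cev x (F + F')) = φ (cev x F) + φ (cev x F')
    rw [map_add, map_add]

@[simp] theorem cev_coindMap (φ : V →+[H] W) (F : CoInd H V) (x : D) :
    cev x (coindMap φ F) = φ (cev x F) := rfl

end Fermat.Agent.S56.EC.Ind.B
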