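/-
S56 / block EC-IND, part (B), leaf B2 : `CoInd H` preserves the class `Cp` and, if `p ∤ #H`, short
exact sequences.
-/
import Fermat.Agent.S56.EC.Ind.B.Coind

set_option autoImplicit false

namespace Fermat.Agent.S56.EC.Ind.B

open Fermat.Agent.S55 Fermat.Agent.S56.EC

variable {D : Type} [Group D] {H : Subgroup D}
variable {V W U : Type} [AddCommGroup V] [DistribMulAction H V] [AddCommGroup W]
  [DistribMulAction H W] [AddCommGroup U] [DistribMulAction H U]

theorem isCp_coInd [Finite D] {p : ℕ} (hV : IsCp p V) : IsCp p (CoInd H V) := by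
  have := hV.finite
  refine ⟨?_, fun F => ?_⟩
  · refine Finite.of_injective (fun (F : CoInd H V) (x : D) => cev x F) ?_
    intro F F' hFF
    exact cev_ext fun x => congrFun hFF x
  · refine cev_ext fun x => ?_
    rw [map_nsmul, hV.tors, map_zero]

/-- Exactness.  Surjectivity: lift pointwise (no condition) and average:
`F x := n' • ∑ h, h • F₀ (x * h)` with `n' * #H ≡ 1 mod p`. -/
theorem shortExact_coindMap [Finite D] {p : ℕ} (hH : Nat.Coprime p (Nat.card H))
    (hW : ∀ x : W, p • x = 0) {φ : V →+[H] W} {ψ : W →+[H] U} (h : ShortExact φ ψ) :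
    ShortExact (coindMap (D := D) φ) (coindMap ψ) := by
  classical
  refine ⟨?_, ?_, ?_⟩
  · intro F F' hFF
    refine cev_ext fun x => h.inj ?_
    rw [← cev_coindMap, ← cev_coindMap, hFF]
  · intro b
    constructor
    · intro hb
      have h0 : ∀ x : D, ∃ a : V, φ a = cev x b := by
        intro x
        refine (h.exact _).1 ?_
        rw [← cev_coindMap, hb, map_zero]
      choose F' hF' using h0
      refine ⟨cmk F' ?_, cev_ext fun x => ?_⟩
      · intro k x
        apply h.inj
        rw [map_smul, hF', hF', smul_cev_mul]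
      · rw [cev_coindMap, cev_cmk, hF']
    · rintro ⟨a, rfl⟩
      refine cev_ext fun x => ?_
      rw [cev_coindMap, cev_coindMap, h.comp_eq_zero, map_zero]
  · intro F''
    have : Fintype H := Fintype.ofFinite H
    have hU : ∀ u : U, p • u = 0 := by
      intro u
      obtain ⟨w, rfl⟩ := h.surj u
      rw [← map_nsmul, hW, map_zero]
    obtain ⟨a, b, hab⟩ : IsCoprime (p : ℤ) (Nat.card H : ℤ) := Nat.isCoprime_iff_coprime.mpr hH
    have h0 : ∀ x : D, ∃ w : W, ψ w = cev x F'' := fun x => h.surj _
    choose F0 hF0 using h0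
    refine ⟨cmk (fun x => b • ∑ k : H, k • F0 (x * k)) ?_, cev_ext fun x => ?_⟩
    · intro k x
      rw [smul_comm, Finset.smul_sum]
      congr 1
      refine Fintype.sum_equiv (Equiv.mulLeft k) _ _ fun k' => ?_
      rw [Equiv.coe_mulLeft, smul_smul, Subgroup.coe_mul, mul_assoc]
    · rw [cev_coindMap, cev_cmk, map_zsmul, map_sum]
      have h1 : ∀ k : H, ψ (k • F0 (x * k)) = cev x F'' := by
        intro k
        rw [map_smul, hF0, smul_cev_mul]
      rw [Finset.sum_congr rfl fun k _ => h1 k, Finset.sum_const, Finset.card_univ,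
        ← Nat.card_eq_fintype_card, ← natCast_zsmul, smul_smul]
      have h2 : b * (Nat.card H : ℤ) = 1 - a * (p : ℤ) := by linear_combination hab
      rw [h2, sub_smul, one_smul, mul_smul, natCast_zsmul, hU, smul_zero, sub_zero]

end Fermat.Agent.S56.EC.Ind.B
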