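/-
S56 / block EC-IND, part (B), leaf B6 : `CoInd H` and ranges of (polynomials in) endomorphisms.
-/
import Fermat.Agent.S56.EC.Ind.B.CoindExact

set_option autoImplicit false

namespace Fermat.Agent.S56.EC.Ind.B

open Fermat.Agent.S55 Fermat.Agent.S56.EC Polynomial

variable {D : Type} [Group D] {H : Subgroup D} {p : ℕ}
variable {V : Type} [AddCommGroup V] [DistribMulAction H V]

/-- `CoInd (im φ) ≅ im (CoInd φ)`: `coindMap (GSub.range φ).inclG` is injective and its image is the
image of `coindMap φ` because `coindMap (GSub.rangeRestrict φ)` is surjective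
(`shortExact_coindMap` applied to `MultFun.shortExact_ker_range φ`). -/
theorem e_coInd_range (E : MultFun D p) [Finite D] (hH : Nat.Coprime p (Nat.card H))
    (hV : IsCp p V) (φ : V →+[H] V) :
    E.e (CoInd H (GSub.range φ).Mod) = E.e (GSub.range (coindMap (D := D) φ)).Mod := by
  have hsurj : Function.Surjective (coindMap (D := D) (GSub.rangeRestrict φ)) :=
    (shortExact_coindMap hH hV.tors (MultFun.shortExact_ker_range φ)).surj
  have hcomp : ∀ F : CoInd H V, coindMap (D := D) (GSub.range φ).inclG
      (coindMap (GSub.rangeRestrict φ) F) = coindMap φ F := by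
    intro F
    apply cev_ext
    intro x
    rfl
  let j : CoInd H (GSub.range φ).Mod →+[D] (GSub.range (coindMap (D := D) φ)).Mod :=
    GSub.codRestrict _ (coindMap (D := D) (GSub.range φ).inclG) (by
      intro F
      obtain ⟨F₀, rfl⟩ := hsurj F
      exact (GSub.mem_range _ _).2 ⟨F₀, (hcomp F₀).symm⟩)
  have hj : ∀ F, (GSub.range (coindMap (D := D) φ)).incl (j F)
      = coindMap (D := D) (GSub.range φ).inclG F := fun F => rfl
  refine E.e_congr j ⟨?_, ?_⟩ ((isCp_coInd hV).gsubMod _)
  · intro F F' hFF
    have h1 : coindMap (D := D) (GSub.range φ).inclG F = coindMap (GSub.range φ).inclG F' := by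
      rw [← hj, ← hj, hFF]
    apply cev_ext
    intro x
    apply (GSub.range φ).incl_injective
    exact congrArg (cev x) h1
  · intro y
    obtain ⟨F₀, hF₀⟩ := (GSub.mem_range _ _).1 ((GSub.range (coindMap (D := D) φ)).incl_mem y)
    refine ⟨coindMap (GSub.rangeRestrict φ) F₀, ?_⟩
    apply (GSub.range (coindMap (D := D) φ)).incl_injective
    rw [hj, hcomp, hF₀]

/-- `CoInd (P(γ)) = P(CoInd γ)` (use `polyAdd_natural` for the evaluations `cev x`). -/
theorem coindMap_polyMap (γ : V →+[H] V) (P : ℤ[X]) (F : CoInd H V) :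
    coindMap (D := D) (polyMap γ P) F = polyMap (coindMap γ) P F := by
  apply cev_ext
  intro x
  have := polyAdd_natural (cev (H := H) (V := V) x)
    ((coindMap (D := D) γ : CoInd H V →+[D] CoInd H V) : CoInd H V →+ CoInd H V)
    (γ : V →+ V) (fun F => rfl) P F
  rw [polyMap_apply, this]
  rfl

end Fermat.Agent.S56.EC.Ind.B
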