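/-
S56 / block EC-IND, part (B), leaf B5 : `CoInd H (IndMod H (Res A)) ≅ IndMod D A`, compatibly with
right translation by `s ∈ H`.
-/
import Fermat.Agent.S56.EC.Ind.B.Coind

set_option autoImplicit false

namespace Fermat.Agent.S56.EC.Ind.B

open Fermat.Agent.S55 Fermat.Agent.S56.EC

variable {D : Type} [Group D] (H : Subgroup D)

/-- the key identity -/
theorem CoindReg_cev_apply (A : Type) [AddCommGroup A] [DistribMulAction D A]
    (F : CoInd H (IndMod H (ResMod H.subtype A))) (x : D) (h : H) :
    (cev x F) h = h • (cev (x * h) F) 1 := by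
  have h1 := congrArg (fun w : IndMod H (ResMod H.subtype A) => w h) (smul_cev_mul h x F)
  simp only [IndMod.smul_apply, smul_eq_mul, inv_mul_cancel] at h1
  exact h1.symm

/-- the isomorphism -/
def CoindReg_Omega (A : Type) [AddCommGroup A] [DistribMulAction D A] :
    CoInd H (IndMod H (ResMod H.subtype A)) →+[D] IndMod D A where
  toFun F := IndMod.of fun x => x • (ResMod.toRes H.subtype).symm ((cev x F) 1)
  map_smul' g F := by
    apply IndMod.ext
    intro x
    show x • (ResMod.toRes H.subtype).symm ((cev x (g • F)) 1) =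
      g • (g⁻¹ * x) • (ResMod.toRes H.subtype).symm ((cev (g⁻¹ * x) F) 1)
    rw [cev_smul, smul_smul, mul_inv_cancel_left]
  map_zero' := by
    apply IndMod.ext
    intro x
    show x • (ResMod.toRes H.subtype).symm ((cev x (0 : CoInd H (IndMod H (ResMod H.subtype A)))) 1)
      = 0
    rw [map_zero, IndMod.zero_apply, map_zero, smul_zero]
  map_add' F F' := by
    apply IndMod.ext
    intro x
    show x • (ResMod.toRes H.subtype).symm ((cev x (F + F')) 1) =
      x • (ResMod.toRes H.subtype).symm ((cev x F) 1) +
        x • (ResMod.toRes H.subtype).symm ((cev x F') 1)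
    rw [map_add, IndMod.add_apply, map_add, smul_add]

theorem CoindReg_Omega_apply (A : Type) [AddCommGroup A] [DistribMulAction D A]
    (F : CoInd H (IndMod H (ResMod H.subtype A))) (x : D) :
    CoindReg_Omega H A F x = x • (ResMod.toRes H.subtype).symm ((cev x F) 1) := rfl

/-- `Ω F x = x • (F x) 1`, inverse `f ↦ (x ↦ (h ↦ x⁻¹ • f (x * h)))`. -/
theorem exists_regIso (A : Type) [AddCommGroup A] [DistribMulAction D A] (s : H) :
    ∃ Ω : CoInd H (IndMod H (ResMod H.subtype A)) →+[D] IndMod D A, Function.Bijective Ω ∧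
      ∀ F, Ω (coindMap (IndMod.pull (ResMod H.subtype A) (rightMul s)) F) =
        IndMod.pull A (rightMul (s : D)) (Ω F) := by
  refine ⟨CoindReg_Omega H A, ⟨?_, ?_⟩, ?_⟩
  · rw [injective_iff_map_eq_zero]
    intro F hF
    have h1 : ∀ x : D, (cev x F) 1 = 0 := by
      intro x
      have h2 := congrArg (fun w : IndMod D A => w x) hF
      simp only [CoindReg_Omega_apply, IndMod.zero_apply] at h2
      have h3 := (smul_eq_zero_iff_eq x).1 h2
      exact (AddEquiv.map_eq_zero_iff _).1 h3
    apply cev_ext
    intro x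
    apply IndMod.ext
    intro h
    rw [CoindReg_cev_apply, h1, smul_zero, map_zero, IndMod.zero_apply]
  · intro f
    refine ⟨cmk (fun x => IndMod.of fun h : H => ResMod.toRes H.subtype (x⁻¹ • f (x * h))) ?_, ?_⟩
    · intro h x
      apply IndMod.ext
      intro h'
      show h • ResMod.toRes H.subtype ((x * h)⁻¹ • f (x * h * ((h⁻¹ * h' : H) : D))) =
        ResMod.toRes H.subtype (x⁻¹ • f (x * h'))
      rw [ResMod.smul_def, smul_smul]
      congr 2
      · show (h : D) * (x * h)⁻¹ = x⁻¹
        group
      · congr 1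
        push_cast
        group
    · apply IndMod.ext
      intro x
      rw [CoindReg_Omega_apply, cev_cmk]
      show x • (x⁻¹ • f (x * ((1 : H) : D))) = f x
      rw [smul_smul, mul_inv_cancel, one_smul, Subgroup.coe_one, mul_one]
  · intro F
    apply IndMod.ext
    intro x
    rw [CoindReg_Omega_apply, cev_coindMap, IndMod.pull_apply, IndMod.pull_apply, rightMul_apply,
      rightMul_apply, one_mul, CoindReg_Omega_apply, CoindReg_cev_apply, mul_smul]
    rfl

end Fermat.Agent.S56.EC.Ind.B
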