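/-
S56 / block EC-IND, part (B), leaf B4 : `CoInd H (Res N) ≅ IndMod (D ⧸ H) N`.
-/
import Fermat.Agent.S56.EC.Ind.B.Coind

set_option autoImplicit false

namespace Fermat.Agent.S56.EC.Ind.B

open Fermat.Agent.S55 Fermat.Agent.S56.EC

variable {D : Type} [Group D] (H : Subgroup D)

private theorem CoindRes.mem (N : Type) [AddCommGroup N] [DistribMulAction D N]
    (f : IndMod (D ⧸ H) N) (h : H) (x : D) :
    h • ResMod.toRes H.subtype ((x * h)⁻¹ • f ((x * h : D) : D ⧸ H)) =
      ResMod.toRes H.subtype (x⁻¹ • f (x : D ⧸ H)) := by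
  rw [ResMod.smul_def]
  congr 1
  have h1 : ((x * h : D) : D ⧸ H) = (x : D ⧸ H) := QuotientGroup.mk_mul_of_mem x h.2
  rw [h1, smul_smul]
  congr 1
  show (h : D) * (x * h)⁻¹ = x⁻¹
  group

/-- `f ↦ (x ↦ x⁻¹ • f (x H))`. -/
theorem exists_resIso (N : Type) [AddCommGroup N] [DistribMulAction D N] :
    ∃ φ : IndMod (D ⧸ H) N →+[D] CoInd H (ResMod H.subtype N), Function.Bijective φ := by
  let φ : IndMod (D ⧸ H) N →+[D] CoInd H (ResMod H.subtype N) :=
    { toFun := fun f => cmk (fun x => ResMod.toRes H.subtype (x⁻¹ • f (x : D ⧸ H)))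
        (CoindRes.mem H N f)
      map_smul' := fun g f => cev_ext fun x => by
        rw [MonoidHom.id_apply, cev_smul, cev_cmk, cev_cmk, IndMod.smul_apply, smul_smul]
        congr 2
        group
      map_zero' := cev_ext fun x => by
        rw [cev_cmk, IndMod.zero_apply, smul_zero, map_zero, map_zero]
      map_add' := fun f f' => cev_ext fun x => by
        rw [map_add, cev_cmk, cev_cmk, cev_cmk, IndMod.add_apply, smul_add, map_add] }
  have hφ : ∀ (f : IndMod (D ⧸ H) N) (x : D),
      cev x (φ f) = ResMod.toRes H.subtype (x⁻¹ • f (x : D ⧸ H)) := fun _ _ => rfl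
  refine ⟨φ, ?_, ?_⟩
  · intro f f' h
    ext q
    induction q using QuotientGroup.induction_on with
    | H x =>
      have h1 := congrArg (cev x) h
      rw [hφ, hφ] at h1
      exact smul_left_cancel _ ((ResMod.toRes H.subtype).injective h1)
  · intro F
    refine ⟨IndMod.of fun q => q.out • (ResMod.toRes H.subtype).symm (cev q.out F),
      cev_ext fun x => ?_⟩
    obtain ⟨h, hh⟩ := QuotientGroup.mk_out_eq_mul H x
    rw [hφ]
    show ResMod.toRes H.subtype (x⁻¹ • ((x : D ⧸ H).out •
      (ResMod.toRes H.subtype).symm (cev (x : D ⧸ H).out F))) = cev x F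
    rw [hh, smul_smul, inv_mul_cancel_left, ← smul_cev_mul h x F]
    generalize cev (x * (h : D)) F = a
    obtain ⟨a, rfl⟩ := (ResMod.toRes H.subtype).surjective a
    rw [AddEquiv.symm_apply_apply, ResMod.smul_def]
    rfl

end Fermat.Agent.S56.EC.Ind.B
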