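/-
S56 / block EC-IND, part (B) (helper236) : the regular module `IndMod H A` of a finite group `H`:
the generator `delta a₀`, the equivariant map `piMap lam : IndMod H A → V` attached to an additive
map `lam : A → V`, the operator `tauMap s c = c • s⁻¹` on `V`.   Definitions only.
-/
import Fermat.Agent.S56.EC.Ind.Basic
import Fermat.Agent.S56.EC.Defs

set_option autoImplicit false

namespace Fermat.Agent.S56.EC.Ind.B

open Fermat.Agent.S55 Fermat.Agent.S56.EC

variable {H : Type} [Group H] {A V : Type} [AddCommGroup A] [DistribMulAction H A]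
  [AddCommGroup V] [DistribMulAction H V]

open Classical in
/-- The function with value `a₀` at `1` and `0` elsewhere. -/
noncomputable def delta (a₀ : A) : IndMod H A := IndMod.of fun h => if h = 1 then a₀ else 0

omit [DistribMulAction H A] in
theorem delta_apply_one (a₀ : A) : (delta a₀ : IndMod H A) 1 = a₀ := by
  simp [delta]

omit [DistribMulAction H A] in
theorem delta_apply_of_ne (a₀ : A) {h : H} (hh : h ≠ 1) : (delta a₀ : IndMod H A) h = 0 := by
  simp [delta, hh]

/-- `w ↦ ∑ h, h • lam (h⁻¹ • w h)`: the equivariant map with `delta a ↦ lam a`. -/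
noncomputable def piMap [Fintype H] (lam : A →+ V) : IndMod H A →+[H] V where
  toFun w := ∑ h : H, h • lam (h⁻¹ • w h)
  map_smul' g w := by
    change ∑ h : H, h • lam (h⁻¹ • (g • w) h) = g • ∑ h : H, h • lam (h⁻¹ • w h)
    rw [Finset.smul_sum]
    refine (Fintype.sum_equiv (Equiv.mulLeft g) _ _ fun h => ?_).symm
    rw [Equiv.coe_mulLeft, IndMod.smul_apply, smul_eq_mul, inv_mul_cancel_left, mul_smul,
      smul_smul (g * h)⁻¹ g, mul_inv_rev, inv_mul_cancel_right]
  map_zero' := by simp
  map_add' w w' := by
    simp only [IndMod.add_apply, smul_add, map_add, Finset.sum_add_distrib]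

theorem piMap_apply [Fintype H] (lam : A →+ V) (w : IndMod H A) :
    piMap lam w = ∑ h : H, h • lam (h⁻¹ • w h) := rfl

/-- The additive endomorphism `v ↦ c • s⁻¹ • v`. -/
def tauMap (V : Type) [AddCommGroup V] [DistribMulAction H V] (s : H) (c : ℤ) : V →+ V :=
  c • DistribSMul.toAddMonoidHom V s⁻¹

theorem tauMap_apply (s : H) (c : ℤ) (v : V) : tauMap V s c v = c • s⁻¹ • v := rfl

end Fermat.Agent.S56.EC.Ind.B
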