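/-
S56 / block EC-IND, part (B), leaf B9 : the regular module of a cyclic group `H = ⟨s⟩` is generated
by `delta a₀` over `ℤ[γ]`, `γ` = right translation by `s`.
-/
import Fermat.Agent.S56.EC.Ind.B.RegDefs

set_option autoImplicit false

namespace Fermat.Agent.S56.EC.Ind.B

open Fermat.Agent.S55 Fermat.Agent.S56.EC Polynomial

variable {H : Type} [Group H] {A : Type} [AddCommGroup A] [DistribMulAction H A]

private theorem Cyc_iterate_apply (s : H) (i : ℕ) (f : IndMod H A) (x : H) :
    ((IndMod.pull A (rightMul s) : IndMod H A →+ IndMod H A)^[i] f) x = f (x * s ^ i) := by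
  induction i generalizing f with
  | zero => simp
  | succ i ih =>
    rw [Function.iterate_succ_apply, ih]
    change f (rightMul s (x * s ^ i)) = _
    rw [rightMul_apply, pow_succ, mul_assoc]

open Classical in
private theorem Cyc_single [Finite H] (s : H) (hs : ∀ h : H, h ∈ Subgroup.zpowers s) (a₀ : A)
    (h : H) (n : ℤ) :
    ∃ Q : ℤ[X], polyMap (IndMod.pull A (rightMul s)) Q (delta a₀) =
      IndMod.of fun x => if x = h then n • a₀ else 0 := by
  have h1 : h⁻¹ ∈ Submonoid.powers s := (mem_powers_iff_mem_zpowers).2 (hs h⁻¹)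
  obtain ⟨i, hi⟩ := h1
  refine ⟨C n * X ^ i, ?_⟩
  ext x
  rw [polyMap_apply, polyAdd_mul, polyAdd_C, polyAdd_X_pow, IndMod.zsmul_apply, Cyc_iterate_apply]
  have hi' : s ^ i = h⁻¹ := hi
  rw [hi']
  change n • (delta a₀ : IndMod H A) (x * h⁻¹) = if x = h then n • a₀ else 0
  by_cases hx : x = h
  · subst hx
    rw [mul_inv_cancel, delta_apply_one, if_pos rfl]
  · rw [if_neg hx, delta_apply_of_ne, smul_zero]
    intro h2
    exact hx (mul_inv_eq_one.1 h2)

/-- `(γ^i δ)(h) = δ(h s^i)` is `a₀` at `h = s^(-i)`; every `w` is a finite sum of functions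
supported at one point. -/
theorem exists_poly_delta [Finite H] (s : H) (hs : ∀ h : H, h ∈ Subgroup.zpowers s) (a₀ : A)
    (ha : ∀ a : A, ∃ n : ℤ, a = n • a₀) (w : IndMod H A) :
    ∃ Q : ℤ[X], w = polyMap (IndMod.pull A (rightMul s)) Q (delta a₀) := by
  classical
  haveI := Fintype.ofFinite H
  have key : ∀ S : Finset H, ∃ Q : ℤ[X],
      polyMap (IndMod.pull A (rightMul s)) Q (delta a₀) =
        ∑ h ∈ S, IndMod.of fun x => if x = h then w h else 0 := by
    intro S
    induction S using Finset.induction_on with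
    | empty => exact ⟨0, by rw [polyMap_apply, polyAdd_zero, Finset.sum_empty]⟩
    | insert h S hh ih =>
      obtain ⟨Q, hQ⟩ := ih
      obtain ⟨n, hn⟩ := ha (w h)
      obtain ⟨Q', hQ'⟩ := Cyc_single s hs a₀ h n
      refine ⟨Q' + Q, ?_⟩
      rw [Finset.sum_insert hh, ← hQ, hn, ← hQ', polyMap_apply, polyMap_apply, polyMap_apply,
        polyAdd_add]
  obtain ⟨Q, hQ⟩ := key Finset.univ
  refine ⟨Q, ?_⟩
  rw [hQ]
  ext x
  rw [IndMod.finset_sum_apply]
  simp only [IndMod.of_apply]
  rw [Finset.sum_ite_eq Finset.univ x (fun h => w h), if_pos (Finset.mem_univ x)]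

end Fermat.Agent.S56.EC.Ind.B
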