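/-
S56 / block EC-IND, part (B), leaf B8 (Mathlib only) : abelian groups of prime order.
-/
import Mathlib

set_option autoImplicit false

namespace Fermat.Agent.S56.EC.Ind.B

variable {p : ℕ} [Fact p.Prime] {A : Type} [AddCommGroup A]

theorem orderP_nsmul (hA : Nat.card A = p) (a : A) : p • a = 0 := by
  rw [← hA]
  exact card_nsmul_eq_zero'

theorem orderP_exists_ne_zero (hA : Nat.card A = p) : ∃ a₀ : A, a₀ ≠ 0 := by
  have hp : p.Prime := Fact.out
  have hfin : Finite A := Nat.finite_of_card_ne_zero (by rw [hA]; exact hp.ne_zero)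
  have hnt : Nontrivial A := Finite.one_lt_card_iff_nontrivial.1 (by rw [hA]; exact hp.one_lt)
  exact exists_ne 0

private theorem OrderP_addOrderOf (hA : Nat.card A = p) {a₀ : A} (h0 : a₀ ≠ 0) :
    addOrderOf a₀ = p :=
  addOrderOf_eq_prime (orderP_nsmul hA a₀) h0

theorem orderP_exists_zsmul (hA : Nat.card A = p) {a₀ : A} (h0 : a₀ ≠ 0) (a : A) :
    ∃ n : ℤ, a = n • a₀ := by
  have hp : p.Prime := Fact.out
  have hfin : Finite A := Nat.finite_of_card_ne_zero (by rw [hA]; exact hp.ne_zero)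
  have htop : AddSubgroup.zmultiples a₀ = ⊤ := by
    apply AddSubgroup.eq_top_of_card_eq
    rw [Nat.card_zmultiples, OrderP_addOrderOf hA h0, hA]
  have ha : a ∈ AddSubgroup.zmultiples a₀ := by
    rw [htop]
    exact AddSubgroup.mem_top a
  obtain ⟨n, hn⟩ := AddSubgroup.mem_zmultiples_iff.1 ha
  exact ⟨n, hn.symm⟩

theorem orderP_zsmul_eq_zero (hA : Nat.card A = p) {a₀ : A} (h0 : a₀ ≠ 0) {n : ℤ}
    (hn : n • a₀ = 0) : (p : ℤ) ∣ n := by
  rw [← OrderP_addOrderOf hA h0]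
  exact addOrderOf_dvd_iff_zsmul_eq_zero.2 hn

/-- every additive endomorphism is a scalar -/
theorem orderP_exists_scalar (hA : Nat.card A = p) (f : A →+ A) : ∃ c : ℤ, ∀ a, f a = c • a := by
  obtain ⟨a₀, h0⟩ := orderP_exists_ne_zero hA
  obtain ⟨c, hc⟩ := orderP_exists_zsmul hA h0 (f a₀)
  refine ⟨c, fun a => ?_⟩
  obtain ⟨n, rfl⟩ := orderP_exists_zsmul hA h0 a
  rw [map_zsmul, hc, smul_comm]

/-- additive maps out of `A` -/
theorem orderP_exists_hom (hA : Nat.card A = p) {a₀ : A} (h0 : a₀ ≠ 0) {V : Type} [AddCommGroup V]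
    (v : V) (hv : p • v = 0) : ∃ lam : A →+ V, lam a₀ = v := by
  have hsurj : Function.Surjective (zmultiplesHom A a₀) := by
    intro a
    obtain ⟨n, hn⟩ := orderP_exists_zsmul hA h0 a
    exact ⟨n, by rw [zmultiplesHom_apply, hn]⟩
  have hker : (zmultiplesHom A a₀).ker ≤ (zmultiplesHom V v).ker := by
    intro n hn
    rw [AddMonoidHom.mem_ker, zmultiplesHom_apply] at hn ⊢
    obtain ⟨m, rfl⟩ := orderP_zsmul_eq_zero hA h0 hn
    rw [mul_comm, mul_smul, natCast_zsmul, hv, smul_zero]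
  refine ⟨(zmultiplesHom A a₀).liftOfSurjective hsurj ⟨zmultiplesHom V v, hker⟩, ?_⟩
  have h1 : zmultiplesHom A a₀ 1 = a₀ := by rw [zmultiplesHom_apply, one_smul]
  have h2 := AddMonoidHom.liftOfRightInverse_comp_apply (zmultiplesHom A a₀)
    (Function.surjInv hsurj) (Function.rightInverse_surjInv hsurj) ⟨zmultiplesHom V v, hker⟩ 1
  rw [h1] at h2
  rw [AddMonoidHom.liftOfSurjective]
  rw [h2]
  show zmultiplesHom V v 1 = v
  rw [zmultiplesHom_apply, one_smul]

end Fermat.Agent.S56.EC.Ind.B
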