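/-
S56 / block EC-IND, part (B), leaf B10 : properties of `piMap`.
-/
import Fermat.Agent.S56.EC.Ind.B.RegDefs

set_option autoImplicit false

namespace Fermat.Agent.S56.EC.Ind.B

open Fermat.Agent.S55 Fermat.Agent.S56.EC Polynomial

variable {H : Type} [Group H] [Fintype H] {A V : Type} [AddCommGroup A] [DistribMulAction H A]
  [AddCommGroup V] [DistribMulAction H V]

omit [Fintype H] [AddCommGroup A] [DistribMulAction H A] in
theorem PiMapApi_smul_zsmul (h : H) (c : ℤ) (v : V) : h • c • v = c • h • v :=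
  (DistribSMul.toAddMonoidHom V h).map_zsmul c v

theorem piMap_delta (lam : A →+ V) (a₀ : A) : piMap lam (delta a₀ : IndMod H A) = lam a₀ := by
  rw [piMap_apply, Finset.sum_eq_single 1]
  · rw [delta_apply_one, inv_one, one_smul, one_smul]
  · intro h _ hh
    rw [delta_apply_of_ne a₀ hh, smul_zero, map_zero, smul_zero]
  · intro h
    exact absurd (Finset.mem_univ _) h

/-- `π(γ w) = τ(π w)`, `τ = c s⁻¹`, if `s` is central and acts on `A` by the scalar `c`. -/
theorem piMap_pull (lam : A →+ V) (s : H) (hcomm : ∀ h : H, h * s = s * h) (c : ℤ)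
    (hc : ∀ a : A, s • a = c • a) (w : IndMod H A) :
    piMap lam (IndMod.pull A (rightMul s) w) = tauMap V s c (piMap lam w) := by
  rw [tauMap_apply, piMap_apply, piMap_apply, Finset.smul_sum, Finset.smul_sum]
  refine Fintype.sum_equiv (Equiv.mulRight s) _ _ fun h => ?_
  show h • lam (h⁻¹ • w (h * s)) = c • s⁻¹ • (h * s) • lam ((h * s)⁻¹ • w (h * s))
  have e1 : s⁻¹ * (h * s) = h := by rw [hcomm, inv_mul_cancel_left]
  have e2 : s * (h * s)⁻¹ = h⁻¹ := by rw [mul_inv_rev, mul_inv_cancel_left]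
  rw [smul_smul s⁻¹ (h * s), e1, ← PiMapApi_smul_zsmul, ← map_zsmul, ← hc, smul_smul s, e2]

/-- hence `π(Q(γ) w) = Q(τ)(π w)` (`polyAdd_natural`). -/
theorem piMap_polyMap (lam : A →+ V) (s : H) (hcomm : ∀ h : H, h * s = s * h) (c : ℤ)
    (hc : ∀ a : A, s • a = c • a) (Q : ℤ[X]) (w : IndMod H A) :
    piMap lam (polyMap (IndMod.pull A (rightMul s)) Q w) = polyAdd (tauMap V s c) Q (piMap lam w) :=
  polyAdd_natural (piMap lam) ((IndMod.pull A (rightMul s) : IndMod H A →+[H] IndMod H A) :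
    IndMod H A →+ IndMod H A) (tauMap V s c) (piMap_pull lam s hcomm c hc) Q w

omit [Fintype H] [AddCommGroup A] [DistribMulAction H A] in
theorem PiMapApi_tauMap_iterate (s : H) (c : ℤ) (k : ℕ) (v : V) :
    (tauMap V s c)^[k] v = c ^ k • (s⁻¹) ^ k • v := by
  induction k with
  | zero => simp
  | succ k ih =>
    rw [Function.iterate_succ_apply', ih, tauMap_apply, PiMapApi_smul_zsmul, smul_smul c,
      smul_smul s⁻¹, ← pow_succ', ← pow_succ']

omit [Fintype H] [AddCommGroup V] [DistribMulAction H V] in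
theorem PiMapApi_pow_smul (s : H) (c : ℤ) (hc : ∀ a : A, s • a = c • a) (k : ℕ) (a : A) :
    s ^ k • a = c ^ k • a := by
  induction k with
  | zero => simp
  | succ k ih => rw [pow_succ', mul_smul, ih, hc, smul_smul, ← pow_succ']

/-- `τ^m = 1` on a group killed by `p`, if `s^m = 1` and `A` has an element `a₀` whose annihilator
in `ℤ` is contained in `pℤ`. -/
theorem tauMap_iterate {p : ℕ} (s : H) (c : ℤ) (hc : ∀ a : A, s • a = c • a) (m : ℕ)
    (hs : s ^ m = 1) (a₀ : A) (ha₀ : ∀ n : ℤ, n • a₀ = 0 → (p : ℤ) ∣ n) (hV : ∀ v : V, p • v = 0)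
    (v : V) : (tauMap V s c)^[m] v = v := by
  rw [PiMapApi_tauMap_iterate, inv_pow, hs, inv_one, one_smul]
  have h1 : (c ^ m - 1) • a₀ = 0 := by
    rw [sub_smul, one_smul, ← PiMapApi_pow_smul s c hc, hs, one_smul, sub_self]
  obtain ⟨d, hd⟩ := ha₀ _ h1
  have h2 : (c ^ m - 1) • v = 0 := by
    rw [hd, mul_comm, mul_smul, natCast_zsmul, hV, smul_zero]
  rw [sub_smul, one_smul, sub_eq_zero] at h2
  exact h2

omit [Fintype H] in
theorem PiMapApi_pull_iterate (s : H) (k : ℕ) (w : IndMod H A) (x : H) :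
    (IndMod.pull A (rightMul s))^[k] w x = w (x * s ^ k) := by
  induction k generalizing w with
  | zero => simp
  | succ k ih =>
    rw [Function.iterate_succ_apply, ih, IndMod.pull_apply, rightMul_apply, mul_assoc, ← pow_succ]

/-- `γ^m = 1`. -/
theorem pull_rightMul_iterate (s : H) (m : ℕ) (hs : s ^ m = 1) (w : IndMod H A) :
    (IndMod.pull A (rightMul s))^[m] w = w := by
  ext x
  rw [PiMapApi_pull_iterate, hs, mul_one]

end Fermat.Agent.S56.EC.Ind.B
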