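/-
S56 / block EC-IND, part (B), leaf B6' : transport of `PolyRange` along an isomorphism, and
`e N = e S * e (N / S)`.
-/
import Fermat.Agent.S56.EC.Ind.Basic
import Fermat.Agent.S56.EC.Defs

set_option autoImplicit false

namespace Fermat.Agent.S56.EC.Ind.B

open Fermat.Agent.S55 Fermat.Agent.S56.EC Polynomial

variable {D : Type} [Group D] {p : ℕ}
variable {M M' : Type} [AddCommGroup M] [DistribMulAction D M] [AddCommGroup M']
  [DistribMulAction D M']

/-- two endomorphisms with the same values have the same image module -/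
theorem e_range_congr (E : MultFun D p) (φ ψ : M →+[D] M) (h : ∀ x, φ x = ψ x) :
    E.e (GSub.range φ).Mod = E.e (GSub.range ψ).Mod := by
  have : φ = ψ := DFunLike.ext _ _ h
  rw [this]

theorem e_polyRange_congr (E : MultFun D p) (Ω : M →+[D] M') (hΩ : Function.Bijective Ω)
    (Γ : M →+[D] M) (Γ' : M' →+[D] M') (h : ∀ x, Ω (Γ x) = Γ' (Ω x)) (P : ℤ[X])
    (hM' : IsCp p M') : E.e (PolyRange Γ P) = E.e (PolyRange Γ' P) := by
  have hmem : ∀ w : PolyRange Γ P, (Ω.comp (GSub.range (polyMap Γ P)).inclG) w ∈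
      (GSub.range (polyMap Γ' P)).toAddSubgroup := by
    intro w
    obtain ⟨x, hx⟩ := (GSub.range (polyMap Γ P)).incl_mem w
    refine ⟨Ω x, ?_⟩
    have h1 := polyMap_natural Ω Γ Γ' h P x
    refine h1.symm.trans ?_
    exact congrArg Ω hx
  refine E.e_congr ((GSub.range (polyMap Γ' P)).codRestrict
    (Ω.comp (GSub.range (polyMap Γ P)).inclG) hmem) ⟨?_, ?_⟩ (hM'.gsubMod _)
  · intro w w' hww
    have h1 : Ω ((GSub.range (polyMap Γ P)).incl w) = Ω ((GSub.range (polyMap Γ P)).incl w') :=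
      congrArg (GSub.range (polyMap Γ' P)).incl hww
    exact (GSub.range (polyMap Γ P)).incl_injective (hΩ.1 h1)
  · intro w'
    obtain ⟨y, hy⟩ := (GSub.range (polyMap Γ' P)).incl_mem w'
    obtain ⟨x, rfl⟩ := hΩ.2 y
    refine ⟨GSub.rangeRestrict (polyMap Γ P) x, ?_⟩
    apply (GSub.range (polyMap Γ' P)).incl_injective
    refine Eq.trans ?_ hy
    exact polyMap_natural Ω Γ Γ' h P x

theorem e_sub_quot (E : MultFun D p) (hM : IsCp p M) (S : GSub D M) :
    E.e M = E.e S.Mod * E.e S.Quot := by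
  refine E.mul _ _ _ S.inclG S.projG hM ⟨S.inclG_injective, fun b => ?_, S.projG_surjective⟩
  rw [GSub.projG_apply, GSub.proj_eq_zero_iff]
  constructor
  · intro hb
    exact ⟨S.mkMod b hb, rfl⟩
  · rintro ⟨a, rfl⟩
    exact S.incl_mem a

end Fermat.Agent.S56.EC.Ind.B
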