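/-
S56 / block EC-IND, part (B) (helper236) : the cyclic case.  For a cyclic group `H = ⟨s⟩` of order
prime to `p`, the submodule of `V` generated by one element (= the image of `piMap lam`) is
isomorphic to `P(γ) (IndMod H A)` for an idempotent polynomial `P`.
-/
import Fermat.Agent.S56.EC.Ind.B.Alg
import Fermat.Agent.S56.EC.Ind.B.OrderP
import Fermat.Agent.S56.EC.Ind.B.Cyc
import Fermat.Agent.S56.EC.Ind.B.PiMapApi
import Fermat.Agent.S56.EC.Ind.B.RangeCongr

set_option autoImplicit false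

namespace Fermat.Agent.S56.EC.Ind.B

open Fermat.Agent.S55 Fermat.Agent.S56.EC Polynomial

variable {H : Type} [Group H] [Fintype H] {p : ℕ} [Fact p.Prime]
  {A V : Type} [AddCommGroup A] [DistribMulAction H A] [AddCommGroup V] [DistribMulAction H V]

/-- The annihilator of `v` in `ℤ[X]`, `X` acting through `τ`. -/
noncomputable def annIdeal (τ : V →+ V) (v : V) : Ideal ℤ[X] where
  carrier := {Q | polyAdd τ Q v = 0}
  add_mem' := by
    intro Q Q' hQ hQ'
    change polyAdd τ (Q + Q') v = 0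
    rw [polyAdd_add, show polyAdd τ Q v = 0 from hQ, show polyAdd τ Q' v = 0 from hQ', add_zero]
  zero_mem' := polyAdd_zero τ v
  smul_mem' := by
    intro R Q hQ
    change polyAdd τ (R * Q) v = 0
    rw [polyAdd_mul, show polyAdd τ Q v = 0 from hQ, map_zero]

theorem mem_annIdeal (τ : V →+ V) (v : V) (Q : ℤ[X]) : Q ∈ annIdeal τ v ↔ polyAdd τ Q v = 0 :=
  Iff.rfl

theorem e_range_piMap (E : MultFun H p) (s : H) (hs : ∀ h : H, h ∈ Subgroup.zpowers s) (m : ℕ)
    (hm : ¬ p ∣ m) (hsm : s ^ m = 1) (hA : Nat.card A = p)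
    (hbase : ∀ P : ℤ[X], IsIdemPoly p m P → E.e (PolyRange (IndMod.pull A (rightMul s)) P) = 1)
    (hV : IsCp p V) (lam : A →+ V) : E.e (GSub.range (piMap (H := H) lam)).Mod = 1 := by
  obtain ⟨a₀, ha₀⟩ := orderP_exists_ne_zero (p := p) hA
  obtain ⟨c, hc⟩ := orderP_exists_scalar (p := p) hA (DistribSMul.toAddMonoidHom A s)
  have hc' : ∀ a : A, s • a = c • a := hc
  have hcomm : ∀ h : H, h * s = s * h := by
    intro h
    obtain ⟨k, rfl⟩ := Subgroup.mem_zpowers_iff.1 (hs h)
    exact ((Commute.refl s).zpow_left k).eq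
  set γ := IndMod.pull A (rightMul s) with hγ
  set τ := tauMap V s c with hτ
  set v := lam a₀ with hv
  have hgen : ∀ w : IndMod H A, ∃ Q : ℤ[X], w = polyMap γ Q (delta a₀) :=
    exists_poly_delta s hs a₀ (orderP_exists_zsmul (p := p) hA ha₀)
  have hπ : ∀ (Q : ℤ[X]) (w : IndMod H A), piMap lam (polyMap γ Q w) = polyAdd τ Q (piMap lam w) :=
    piMap_polyMap lam s hcomm c hc'
  have hπδ : piMap lam (delta a₀ : IndMod H A) = v := piMap_delta lam a₀
  have hτm : ∀ x : V, τ^[m] x = x :=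
    tauMap_iterate (p := p) s c hc' m hsm a₀
      (fun n hn => orderP_zsmul_eq_zero (p := p) hA ha₀ hn) hV.tors
  have hγm : ∀ w : IndMod H A, (γ : IndMod H A →+ IndMod H A)^[m] w = w :=
    pull_rightMul_iterate s m hsm
  have hAp : ∀ w : IndMod H A, p • w = 0 := by
    intro w
    ext x
    exact orderP_nsmul (p := p) hA (w x)
  obtain ⟨P, hP, hP1, hPJ⟩ := exists_idemPoly p m hm (annIdeal τ v)
    (by rw [mem_annIdeal, polyAdd_C, natCast_zsmul, hV.tors])
    (by rw [mem_annIdeal, polyAdd_sub, polyAdd_X_pow, hτm, polyAdd_one, sub_self])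
  have hPv : polyAdd τ P v = v := by
    have := (mem_annIdeal τ v _).1 hP1
    rw [polyAdd_sub, polyAdd_one, sub_eq_zero] at this
    exact this.symm
  let Θ : PolyRange γ P →+[H] (GSub.range (piMap (H := H) lam)).Mod :=
    GSub.codRestrict (GSub.range (piMap (H := H) lam)) ((piMap lam).comp (GSub.range (polyMap γ P)).inclG)
      (fun a => (GSub.mem_range _ _).2 ⟨_, rfl⟩)
  have hΘ : ∀ w, (GSub.range (piMap (H := H) lam)).incl (Θ w)
      = piMap lam ((GSub.range (polyMap γ P)).incl w) := fun w => rfl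
  have hbij : Function.Bijective Θ := by
    constructor
    · rw [injective_iff_map_eq_zero]
      intro w hw
      apply (GSub.range (polyMap γ P)).incl_injective
      rw [map_zero]
      have h0 : piMap lam ((GSub.range (polyMap γ P)).incl w) = 0 := by
        rw [← hΘ, hw, map_zero]
      obtain ⟨w₀, hw₀⟩ := (GSub.mem_range _ _).1 ((GSub.range (polyMap γ P)).incl_mem w)
      set w' := (GSub.range (polyMap γ P)).incl w with hw'
      obtain ⟨Q, hQ⟩ := hgen w'
      have hQJ : Q ∈ annIdeal τ v := by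
        rw [mem_annIdeal, ← hπδ, ← hπ, ← hQ, h0]
      obtain ⟨Q₁, Q₂, hQ12⟩ := hPJ Q hQJ
      have h1 : polyMap γ P w' = 0 := by
        rw [hQ, polyMap_apply, polyMap_apply, ← polyAdd_mul, hQ12, polyAdd_add, polyAdd_mul,
          polyAdd_mul, polyAdd_C, natCast_zsmul, hAp, polyAdd_sub, polyAdd_X_pow, hγm, polyAdd_one,
          sub_self, add_zero]
      have h2 : polyMap γ P w' = w' := by
        rw [← hw₀, polyMap_apply, polyMap_apply]
        exact polyAdd_idem hP _ hAp hγm w₀
      rw [← h2, h1]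
    · intro y
      obtain ⟨w, hw⟩ := (GSub.mem_range _ _).1 ((GSub.range (piMap (H := H) lam)).incl_mem y)
      refine ⟨GSub.rangeRestrict (polyMap γ P) w, ?_⟩
      apply (GSub.range (piMap (H := H) lam)).incl_injective
      rw [hΘ, GSub.incl_rangeRestrict, hπ, ← hw]
      obtain ⟨Q, hQ⟩ := hgen w
      rw [hQ, hπ, hπδ, ← polyAdd_mul, mul_comm, polyAdd_mul, hPv]
  rw [← E.e_congr Θ hbij (hV.gsubMod _)]
  exact hbase P hP

end Fermat.Agent.S56.EC.Ind.B
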