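/-
S56 / block EC-IND, part (B) (helper236) : devissage for a cyclic group `H = ⟨s⟩` of order prime to
`p`: a multiplicative function which is trivial on all `P(γ) (IndMod H A)` is trivial.
-/
import Fermat.Agent.S56.EC.Ind.B.CycSub

set_option autoImplicit false

namespace Fermat.Agent.S56.EC.Ind.B

open Fermat.Agent.S55 Fermat.Agent.S56.EC Polynomial

variable {H : Type} [Group H] [Fintype H] {p : ℕ} [Fact p.Prime]
  {A : Type} [AddCommGroup A] [DistribMulAction H A]

theorem e_eq_one_of_cyclic_aux (E : MultFun H p) (s : H) (hs : ∀ h : H, h ∈ Subgroup.zpowers s)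
    (m : ℕ) (hm : ¬ p ∣ m) (hsm : s ^ m = 1) (hA : Nat.card A = p)
    (hbase : ∀ P : ℤ[X], IsIdemPoly p m P → E.e (PolyRange (IndMod.pull A (rightMul s)) P) = 1)
    (n : ℕ) : ∀ (V : Type) [AddCommGroup V] [DistribMulAction H V], IsCp p V → Nat.card V = n →
      E.e V = 1 := by
  induction n using Nat.strong_induction_on with
  | _ n ih =>
  intro V _ _ hV hn
  have := hV.finite
  by_cases hsub : Subsingleton V
  · exact E.e_subsingleton V
  rw [not_subsingleton_iff_nontrivial] at hsub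
  obtain ⟨v, hv⟩ := exists_ne (0 : V)
  obtain ⟨a₀, ha₀⟩ := orderP_exists_ne_zero (p := p) hA
  obtain ⟨lam, hlam⟩ := orderP_exists_hom (p := p) hA ha₀ v (hV.tors v)
  set S := GSub.range (piMap (H := H) lam) with hS
  have hvS : v ∈ S.toAddSubgroup := (GSub.mem_range _ _).2 ⟨delta a₀, by rw [piMap_delta, hlam]⟩
  rw [e_sub_quot E hV S, e_range_piMap E s hs m hm hsm hA hbase hV lam, one_mul]
  refine ih (Nat.card S.Quot) ?_ S.Quot (hV.gsubQuot S) rfl
  rw [← hn]
  have h1 : Nat.card V = Nat.card (V ⧸ S.toAddSubgroup) * Nat.card S.toAddSubgroup :=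
    AddSubgroup.card_eq_card_quotient_mul_card_addSubgroup S.toAddSubgroup
  have h2 : 1 < Nat.card S.toAddSubgroup := by
    rw [Finite.one_lt_card_iff_nontrivial]
    exact ⟨⟨⟨v, hvS⟩, 0, fun h => hv (congrArg Subtype.val h)⟩⟩
  have h3 : 0 < Nat.card (V ⧸ S.toAddSubgroup) := Nat.card_pos
  change Nat.card (V ⧸ S.toAddSubgroup) < Nat.card V
  rw [h1]
  nlinarith

/-- (B) for a cyclic group of order prime to `p`. -/
theorem e_eq_one_of_cyclic (E : MultFun H p) (s : H) (hs : ∀ h : H, h ∈ Subgroup.zpowers s)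
    (m : ℕ) (hm : ¬ p ∣ m) (hsm : s ^ m = 1) (hA : Nat.card A = p)
    (hbase : ∀ P : ℤ[X], IsIdemPoly p m P → E.e (PolyRange (IndMod.pull A (rightMul s)) P) = 1)
    (V : Type) [AddCommGroup V] [DistribMulAction H V] (hV : IsCp p V) : E.e V = 1 :=
  e_eq_one_of_cyclic_aux E s hs m hm hsm hA hbase _ V hV rfl

end Fermat.Agent.S56.EC.Ind.B
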