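/-
S56 / block EC-IND, part (B) (helper236) : reduction of the base case of the induction theorem to
the modules `P(γ_s) (IndMod D A)`, `A` a fixed `D`-module of order `p`, `γ_s` = right translation by
an element `s` of order prime to `p`, `P` an idempotent polynomial.
-/
import Fermat.Agent.S56.EC.Ind.B.Devissage
import Fermat.Agent.S56.EC.Ind.B.CoindRange
import Fermat.Agent.S56.EC.Ind.B.CoindRes
import Fermat.Agent.S56.EC.Ind.B.CoindReg

set_option autoImplicit false

namespace Fermat.Agent.S56.EC.Ind.B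

open Fermat.Agent.S55 Fermat.Agent.S56.EC Polynomial

variable {D : Type} [Group D] {p : ℕ}

/-- `V ↦ e (CoInd H V)` is a multiplicative function on `H`-modules if `p ∤ #H`. -/
noncomputable def coindFun (E : MultFun D p) (H : Subgroup D) [Finite D]
    (hH : Nat.Coprime p (Nat.card H)) : MultFun H p where
  e := fun V _ _ => E.e (CoInd H V)
  pos := fun _ _ _ hV => E.pos _ (isCp_coInd hV)
  mul := fun _ _ _ _ _ _ _ _ _ φ ψ hB h =>
    E.mul _ _ _ (coindMap φ) (coindMap ψ) (isCp_coInd hB) (shortExact_coindMap hH hB.tors h)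

theorem coindFun_e (E : MultFun D p) (H : Subgroup D) [Finite D]
    (hH : Nat.Coprime p (Nat.card H)) (V : Type) [AddCommGroup V] [DistribMulAction H V] :
    (coindFun E H hH).e V = E.e (CoInd H V) := rfl

/-- **(B)** -/
theorem e_indMod_quot_zpowers [Finite D] [Fact p.Prime] (E : MultFun D p)
    (A : Type) [AddCommGroup A] [DistribMulAction D A] (hA : Nat.card A = p)
    (hbase : ∀ (s : D) (m : ℕ), ¬ p ∣ m → s ^ m = 1 → ∀ P : ℤ[X], IsIdemPoly p m P →
      E.e (PolyRange (IndMod.pull A (rightMul s)) P) = 1)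
    (s : D) (hs : ¬ p ∣ orderOf s) {N : Type} [AddCommGroup N] [DistribMulAction D N]
    (hN : IsCp p N) : E.e (IndMod (D ⧸ Subgroup.zpowers s) N) = 1 := by
  set H := Subgroup.zpowers s with hHdef
  have hH : Nat.Coprime p (Nat.card H) := by
    rw [hHdef, Nat.card_zpowers]
    exact (Nat.Prime.coprime_iff_not_dvd (Fact.out : p.Prime)).2 hs
  have hNres : IsCp p (ResMod H.subtype N) := ⟨hN.finite, hN.tors⟩
  obtain ⟨φ, hφ⟩ := exists_resIso H N
  rw [E.e_congr φ hφ (isCp_coInd hNres), ← coindFun_e E H hH]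
  have := Fintype.ofFinite H
  let sH : H := ⟨s, Subgroup.mem_zpowers s⟩
  have hgen : ∀ h : H, h ∈ Subgroup.zpowers sH := by
    rintro ⟨h, hh⟩
    obtain ⟨k, rfl⟩ := Subgroup.mem_zpowers_iff.1 hh
    exact Subgroup.mem_zpowers_iff.2 ⟨k, Subtype.ext (by simp [sH])⟩
  have hsm : sH ^ orderOf s = 1 := Subtype.ext (by simp [sH, pow_orderOf_eq_one])
  have hAres : Nat.card (ResMod H.subtype A) = p := hA
  have hAcp : IsCp p (IndMod D A) := by
    have hfin : Finite A := Nat.finite_of_card_ne_zero (by rw [hA]; exact (Fact.out : p.Prime).ne_zero)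
    exact IsCp.indMod D ⟨hfin, fun a => orderP_nsmul (p := p) hA a⟩
  have hAcpH : IsCp p (IndMod H (ResMod H.subtype A)) := by
    have hfin : Finite A := Nat.finite_of_card_ne_zero (by rw [hA]; exact (Fact.out : p.Prime).ne_zero)
    exact IsCp.indMod H ⟨hfin, fun a => orderP_nsmul (p := p) hA a⟩
  refine e_eq_one_of_cyclic (coindFun E H hH) sH hgen (orderOf s) hs hsm hAres ?_ _ hNres
  intro P hP
  obtain ⟨Ω, hΩ, hΩc⟩ := exists_regIso H A sH
  rw [coindFun_e, e_coInd_range E hH hAcpH,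
    e_range_congr E _ (polyMap (coindMap (IndMod.pull (ResMod H.subtype A) (rightMul sH))) P)
      (coindMap_polyMap _ P)]
  exact (e_polyRange_congr E Ω hΩ _ _ hΩc P hAcp).trans
    (hbase s (orderOf s) hs (pow_orderOf_eq_one s) P hP)

/-- **(B)**, for cyclic subgroups. -/
theorem e_indMod_quot_cyclic [Finite D] [Fact p.Prime] (E : MultFun D p)
    (A : Type) [AddCommGroup A] [DistribMulAction D A] (hA : Nat.card A = p)
    (hbase : ∀ (s : D) (m : ℕ), ¬ p ∣ m → s ^ m = 1 → ∀ P : ℤ[X], IsIdemPoly p m P →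
      E.e (PolyRange (IndMod.pull A (rightMul s)) P) = 1)
    (C : Subgroup D) (hC : IsCyclic C) (hpC : ¬ p ∣ Nat.card C)
    {N : Type} [AddCommGroup N] [DistribMulAction D N]
    (hN : IsCp p N) : E.e (IndMod (D ⧸ C) N) = 1 := by
  obtain ⟨⟨s, hsC⟩, hs⟩ := hC.exists_generator
  have hCs : C = Subgroup.zpowers s := by
    apply le_antisymm
    · intro x hx
      obtain ⟨k, hk⟩ := Subgroup.mem_zpowers_iff.1 (hs ⟨x, hx⟩)
      exact Subgroup.mem_zpowers_iff.2 ⟨k, by simpa using congrArg Subtype.val hk⟩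
    · rw [Subgroup.zpowers_le]
      exact hsC
  subst hCs
  rw [Nat.card_zpowers] at hpC
  exact e_indMod_quot_zpowers E A hA hbase s hpC hN

end Fermat.Agent.S56.EC.Ind.B
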